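/-
S55 layer G, leaf G-DESC (helper853) — part 1: arithmetic of primes in `L / L'`.

`L' → L` number fields, `N` a finite group acting on `L` with fixed field (the image of) `L'`.
* `isGaloisGroup_field`, `isGaloisGroup_int` : Mathlib's `IsGaloisGroup N L' L`, `IsGaloisGroup N (𝓞 L') (𝓞 L)`;
* `ramificationIdx_eq_one` : trivial inertia ⇒ `e(w | w ∩ L') = 1`;
* `ordAt_lMap` : `ord_w(x) = ord_{w ∩ L'}(x)` for `x ∈ L'ˣ`, `w` outside `S`.
-/
import Fermat.Agent.S55.G.Defs

set_option autoImplicit false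
set_option linter.unusedSectionVars false
set_option linter.style.haveILetI false

open scoped NumberField TensorProduct Pointwise
open IsDedekindDomain

noncomputable section

namespace Fermat.Agent.S55.G.DescH853

section Galois

variable {G L L' : Type} [Group G] [Finite G] [Field L] [NumberField L]
    [Field L'] [NumberField L'] [Algebra L' L] [MulSemiringAction G L] [FaithfulSMul G L]
    (N : Subgroup G)

theorem isGaloisGroup_field
    (hfix : ∀ x : L, (∀ n : N, (n : G) • x = x) ↔ x ∈ (algebraMap L' L).range) :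
    IsGaloisGroup N L' L where
  faithful := inferInstance
  commutes := ⟨fun n a b => by
    have h : (n : G) • algebraMap L' L a = algebraMap L' L a := (hfix _).2 ⟨a, rfl⟩ n
    change (n : G) • (a • b) = a • ((n : G) • b)
    rw [Algebra.smul_def, Algebra.smul_def, smul_mul', h]⟩
  isInvariant := ⟨fun b hb => (hfix b).1 hb⟩

theorem isGaloisGroup_int
    (hfix : ∀ x : L, (∀ n : N, (n : G) • x = x) ↔ x ∈ (algebraMap L' L).range) :
    IsGaloisGroup N (𝓞 L') (𝓞 L) :=
  haveI := isGaloisGroup_field N hfix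
  IsGaloisGroup.of_isFractionRing N (𝓞 L') (𝓞 L) L' L

/-- Trivial inertia at `w` (as in `IsUnramOut`) gives ramification index `1` over `L'`. -/
theorem ramificationIdx_eq_one
    (hfix : ∀ x : L, (∀ n : N, (n : G) • x = x) ↔ x ∈ (algebraMap L' L).range)
    (w : HeightOneSpectrum (𝓞 L))
    (hw : ∀ g : G, (∀ x : 𝓞 L, g • x - x ∈ w.asIdeal) → ∀ x : L, g • x = x) :
    (w.under (𝓞 L')).asIdeal.ramificationIdx' w.asIdeal = 1 := by
  haveI := isGaloisGroup_int N hfix
  haveI : w.asIdeal.LiesOver (w.under (𝓞 L')).asIdeal := ⟨rfl⟩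
  have hbot : Ideal.inertia N w.asIdeal = ⊥ := by
    rw [eq_bot_iff]
    intro n hn
    rw [Subgroup.mem_bot]
    have h1 : ∀ x : 𝓞 L, (n : G) • x - x ∈ w.asIdeal := fun x => AddSubgroup.mem_inertia.1 hn x
    have h2 := hw (n : G) h1
    have h3 : (n : G) = 1 := eq_of_smul_eq_smul (α := L) fun x => by rw [h2 x, one_smul]
    exact Subtype.ext h3
  have hcard : Nat.card (Ideal.inertia N w.asIdeal) = 1 := by
    rw [hbot]; exact Nat.card_unique
  rw [Ideal.ramificationIdx'_eq_ramificationIdx _ _ (w.under (𝓞 L')).ne_bot,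
    ← Ideal.ramificationIdxIn_eq_ramificationIdx (w.under (𝓞 L')).asIdeal w.asIdeal N,
    ← Ideal.card_inertia_eq_ramificationIdxIn (G := N) (w.under (𝓞 L')).asIdeal w.asIdeal, hcard]

/-- `ord_w(x) = ord_{w ∩ L'}(x)` for `x ∈ L'ˣ` when the inertia at `w` is trivial. -/
theorem ordAt_lMap
    (hfix : ∀ x : L, (∀ n : N, (n : G) • x = x) ↔ x ∈ (algebraMap L' L).range)
    (w : HeightOneSpectrum (𝓞 L))
    (hw : ∀ g : G, (∀ x : 𝓞 L, g • x - x ∈ w.asIdeal) → ∀ x : L, g • x = x)
    (x : Additive L'ˣ) :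
    ordAt w (lMap L' L x) = ordAt (w.under (𝓞 L')) x := by
  haveI : w.asIdeal.LiesOver (w.under (𝓞 L')).asIdeal := ⟨rfl⟩
  have h := HeightOneSpectrum.valuation_liesOver L (w.under (𝓞 L')) w ((x.toMul : L'ˣ) : L')
  rw [ramificationIdx_eq_one N hfix w hw, pow_one] at h
  rw [ordAt_apply, ordAt_apply, h]
  rfl

end Galois

end Fermat.Agent.S55.G.DescH853
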