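/-
S55 layer G, leaf G-DESC (helper853) — part 4: the conorm map on divisors prime to `S`.

`conorm S L' L : Div^S(L') → Div^S(L)`, `(conorm d)(w) = d(w ∩ L')` (the correct conorm when
`L/L'` is unramified outside `S`).
* `conorm_injective`, `conorm_ordHom` (`conorm (div x) = div x`), `conorm_equivariant`,
* `exists_conorm_eq_of_invariant` : `Div^S(L)^N = conorm (Div^S(L'))`.
-/
import Fermat.Agent.S55.G.DescH853.Primes

set_option autoImplicit false
set_option linter.unusedSectionVars false
set_option linter.style.haveILetI false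

open scoped NumberField TensorProduct Pointwise
open IsDedekindDomain

noncomputable section

namespace Fermat.Agent.S55.G.DescH853

section Conorm

variable (S : Finset Nat.Primes) (L' L : Type) [Field L] [NumberField L] [Field L'] [NumberField L']
  [Algebra L' L]

theorem isAbove_under_iff (w : HeightOneSpectrum (𝓞 L)) :
    IsAbove S L' (w.under (𝓞 L')) ↔ IsAbove S L w := by
  unfold IsAbove
  simp only [HeightOneSpectrum.under_asIdeal, Ideal.under_def, Ideal.mem_comap, map_natCast]

/-- The prime of `L'` below a prime of `L` outside `S`. -/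
def underOut (w : PrimeOut S L) : PrimeOut S L' :=
  ⟨w.1.under (𝓞 L'), fun h => w.2 ((isAbove_under_iff S L' L w.1).1 h)⟩

lemma underOut_val (w : PrimeOut S L) : (underOut S L' L w).1 = w.1.under (𝓞 L') := rfl

theorem underOut_surjective : Function.Surjective (underOut S L' L) := by
  rintro ⟨⟨p, hp, hp0⟩, hw'⟩
  obtain ⟨P, hP, rfl⟩ := p.exists_ideal_over_prime_of_isIntegral_of_isDomain (S := 𝓞 L) (by simp)
  have hP0 : P ≠ ⊥ := by
    rintro rfl
    apply hp0
    simp
  refine ⟨⟨⟨P, hP, hP0⟩, fun h => hw' ((isAbove_under_iff S L' L ⟨P, hP, hP0⟩).2 h)⟩, rfl⟩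

theorem underOut_fiber_finite (w' : PrimeOut S L') : (underOut S L' L ⁻¹' {w'}).Finite := by
  have hfin := IsDedekindDomain.primesOver_finite w'.1.asIdeal (𝓞 L)
  have hmaps : (fun w : PrimeOut S L => w.1.asIdeal) '' (underOut S L' L ⁻¹' {w'}) ⊆
      Ideal.primesOver w'.1.asIdeal (𝓞 L) := by
    rintro _ ⟨w, hw, rfl⟩
    refine ⟨w.1.isPrime, ⟨?_⟩⟩
    have := congrArg (fun v : PrimeOut S L' => v.1.asIdeal) (hw : underOut S L' L w = w')
    exact this.symm
  refine Set.Finite.of_finite_image (hfin.subset hmaps) ?_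
  intro a _ b _ hab
  exact Subtype.ext (HeightOneSpectrum.ext hab)

theorem conorm_support_finite (d : PrimeOut S L' →₀ ℤ) :
    (Function.support fun w : PrimeOut S L => d (underOut S L' L w)).Finite := by
  have h : (Function.support fun w : PrimeOut S L => d (underOut S L' L w)) =
      underOut S L' L ⁻¹' (d.support : Set (PrimeOut S L')) := by
    ext w
    simp
  rw [h]
  exact Set.Finite.preimage' d.support.finite_toSet (fun b _ => underOut_fiber_finite S L' L b)

/-- The conorm map `Div^S(L') → Div^S(L)`, `(conorm d)(w) = d(w ∩ L')`. -/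
def conorm : (PrimeOut S L' →₀ ℤ) →+ (PrimeOut S L →₀ ℤ) where
  toFun d := Finsupp.ofSupportFinite (fun w : PrimeOut S L => d (underOut S L' L w))
    (conorm_support_finite S L' L d)
  map_zero' := by
    ext w
    simp [Finsupp.ofSupportFinite_coe]
  map_add' d e := by
    ext w
    simp [Finsupp.ofSupportFinite_coe]

@[simp] lemma conorm_apply (d : PrimeOut S L' →₀ ℤ) (w : PrimeOut S L) :
    conorm S L' L d w = d (underOut S L' L w) := rfl

theorem conorm_injective : Function.Injective (conorm S L' L) := by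
  intro d e h
  ext w'
  obtain ⟨w, rfl⟩ := underOut_surjective S L' L w'
  exact DFunLike.congr_fun h w

end Conorm

section Equivariance

variable (S : Finset Nat.Primes) (L' L : Type) [Field L] [NumberField L] [Field L'] [NumberField L']
  [Algebra L' L] {G Q : Type} [Group G] [MulSemiringAction G L] [Group Q] [MulSemiringAction Q L']

theorem algebraMap_smul_int (g : G) (q : Q)
    (hgq : ∀ x : L', algebraMap L' L (q • x) = g • algebraMap L' L x) (x : 𝓞 L') :
    algebraMap (𝓞 L') (𝓞 L) (q • x) = g • algebraMap (𝓞 L') (𝓞 L) x := by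
  apply NumberField.RingOfIntegers.ext
  exact hgq (x : L')

theorem underOut_primeOutMap (g : G) (q : Q)
    (hgq : ∀ x : L', algebraMap L' L (q • x) = g • algebraMap L' L x) (w : PrimeOut S L) :
    underOut S L' L (primeOutMap S G L g w) = primeOutMap S Q L' q (underOut S L' L w) := by
  apply Subtype.ext
  apply HeightOneSpectrum.ext
  ext x
  rw [underOut_val, primeOutMap_val, primeOutMap_val, underOut_val, mem_primeSMul_iff,
    HeightOneSpectrum.under_asIdeal, HeightOneSpectrum.under_asIdeal, Ideal.under_def,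
    Ideal.under_def, Ideal.mem_comap, Ideal.mem_comap, mem_primeSMul_iff]
  have h := algebraMap_smul_int L' L g q hgq (q⁻¹ • x)
  rw [smul_inv_smul] at h
  rw [h, inv_smul_smul]

theorem conorm_equivariant (g : G) (q : Q)
    (hgq : ∀ x : L', algebraMap L' L (q • x) = g • algebraMap L' L x) (d : PrimeOut S L' →₀ ℤ) :
    conorm S L' L (divRepr S Q L' q d) = divRepr S G L g (conorm S L' L d) := by
  ext w
  have hw : w = primeOutMap S G L g (primeOutMap S G L g⁻¹ w) := by
    rw [← primeOutMap_mul, mul_inv_cancel, primeOutMap_one]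
  rw [hw, divRepr_apply_apply, conorm_apply, conorm_apply,
    underOut_primeOutMap S L' L g q hgq, divRepr_apply_apply]

end Equivariance

section Galois

variable (S : Finset Nat.Primes) {G : Type} (L' L : Type) [Group G] [Finite G] [Field L]
    [NumberField L] [Field L'] [NumberField L'] [Algebra L' L] [MulSemiringAction G L]
    [FaithfulSMul G L] (N : Subgroup G)

/-- `conorm (div x) = div x` when `L/L'` is unramified outside `S`. -/
theorem conorm_ordHom
    (hfix : ∀ x : L, (∀ n : N, (n : G) • x = x) ↔ x ∈ (algebraMap L' L).range)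
    (hunr : ∀ w : HeightOneSpectrum (𝓞 L), ¬ IsAbove S L w →
      ∀ g : G, (∀ x : 𝓞 L, g • x - x ∈ w.asIdeal) → ∀ x : L, g • x = x)
    (x : Additive L'ˣ) :
    conorm S L' L (ordHom S L' x) = ordHom S L (lMap L' L x) := by
  ext w
  rw [conorm_apply, ordHom_apply, ordHom_apply]
  exact (ordAt_lMap N hfix w.1 (hunr w.1 w.2) x).symm

/-- `N` acts transitively on the primes of `L` above a given prime of `L'`. -/
theorem exists_primeOutMap_eq
    (hfix : ∀ x : L, (∀ n : N, (n : G) • x = x) ↔ x ∈ (algebraMap L' L).range)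
    (w₁ w₂ : PrimeOut S L) (h : underOut S L' L w₁ = underOut S L' L w₂) :
    ∃ n : N, primeOutMap S G L (n : G) w₁ = w₂ := by
  haveI := isGaloisGroup_int N hfix
  haveI : w₁.1.asIdeal.LiesOver (underOut S L' L w₁).1.asIdeal := ⟨rfl⟩
  haveI : w₂.1.asIdeal.LiesOver (underOut S L' L w₁).1.asIdeal := ⟨by rw [h]; rfl⟩
  obtain ⟨n, hn⟩ := Ideal.exists_smul_eq_of_isGaloisGroup (underOut S L' L w₁).1.asIdeal
    w₁.1.asIdeal w₂.1.asIdeal N
  refine ⟨n, Subtype.ext (HeightOneSpectrum.ext ?_)⟩
  rw [primeOutMap_val, primeSMul_asIdeal, ← hn]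
  rfl

/-- `Div^S(L)^N = conorm (Div^S(L'))`. -/
theorem exists_conorm_eq_of_invariant
    (hfix : ∀ x : L, (∀ n : N, (n : G) • x = x) ↔ x ∈ (algebraMap L' L).range)
    (d : PrimeOut S L →₀ ℤ) (hd : ∀ n : N, divRepr S G L (n : G) d = d) :
    ∃ d' : PrimeOut S L' →₀ ℤ, conorm S L' L d' = d := by
  let s : PrimeOut S L' → PrimeOut S L := Function.surjInv (underOut_surjective S L' L)
  have hs : ∀ w', underOut S L' L (s w') = w' := Function.surjInv_eq (underOut_surjective S L' L)
  have hfin : (Function.support fun w' : PrimeOut S L' => d (s w')).Finite := by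
    refine (d.support.finite_toSet.image (underOut S L' L)).subset ?_
    intro w' hw'
    refine ⟨s w', ?_, hs w'⟩
    simpa using hw'
  refine ⟨Finsupp.ofSupportFinite _ hfin, ?_⟩
  ext w
  rw [conorm_apply, Finsupp.ofSupportFinite_coe]
  obtain ⟨n, hn⟩ := exists_primeOutMap_eq S L' L N hfix w (s (underOut S L' L w))
    (hs (underOut S L' L w)).symm
  rw [← hn]
  conv_lhs => rw [← hd n]
  exact divRepr_apply_apply S G L (n : G) d w

end Galois

end Fermat.Agent.S55.G.DescH853
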