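/-
S55 layer G, leaf G-DESC (helper853) — part 3: Hilbert's Theorem 90 for a finite group acting
faithfully on a field (`MulSemiringAction` form), by Dedekind's independence of characters.
-/
import Mathlib

set_option autoImplicit false
set_option linter.unusedSectionVars false

noncomputable section

namespace Fermat.Agent.S55.G.DescH853

/-- **Hilbert 90** (multiplicative form).  If the finite group `N` acts faithfully on the field
`L` and `f : N → Lˣ` is a `1`-cocycle, `f (n m) = f n · n (f m)`, then there is `z ∈ Lˣ` with
`f n · n z = z` for all `n`. -/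
theorem hilbert90 {N L : Type} [Group N] [Finite N] [Field L] [MulSemiringAction N L]
    [FaithfulSMul N L] (f : N → Lˣ)
    (hf : ∀ n m : N, ((f (n * m) : Lˣ) : L) = (f n : L) * n • ((f m : Lˣ) : L)) :
    ∃ z : Lˣ, ∀ n : N, ((f n : Lˣ) : L) * n • (z : L) = (z : L) := by
  cases nonempty_fintype N
  let χ : N → (L →* L) := fun n => ((MulSemiringAction.toRingHom N L n : L →+* L) : L →* L)
  have hχ : Function.Injective χ := by
    intro n m h
    apply eq_of_smul_eq_smul (α := L)
    intro x
    exact DFunLike.congr_fun h x
  have hli : LinearIndependent L (fun n : N => (χ n : L → L)) :=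
    (linearIndependent_monoidHom L L).comp χ hχ
  have hne : ∑ n : N, ((f n : Lˣ) : L) • (χ n : L → L) ≠ 0 := by
    intro h
    have := Fintype.linearIndependent_iff.1 hli (fun n => ((f n : Lˣ) : L)) h 1
    exact (f 1).ne_zero this
  obtain ⟨a, ha⟩ : ∃ a : L, ∑ n : N, ((f n : Lˣ) : L) * n • a ≠ 0 := by
    by_contra hcon
    push Not at hcon
    apply hne
    funext a
    simpa [χ] using hcon a
  refine ⟨Units.mk0 _ ha, fun m => ?_⟩
  simp only [Units.val_mk0]
  rw [Finset.smul_sum, Finset.mul_sum]
  have key : ∀ n : N, ((f m : Lˣ) : L) * m • (((f n : Lˣ) : L) * n • a) =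
      ((f (m * n) : Lˣ) : L) * (m * n) • a := by
    intro n
    rw [smul_mul', hf, mul_smul, mul_assoc]
  simp only [key]
  exact Fintype.sum_bijective (fun n => m * n) (Group.mulLeft_bijective m) _ _ (fun n => rfl)

end Fermat.Agent.S55.G.DescH853
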