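/-
S55 layer G, leaf G-DESC (helper853) — part 2: the tensor model `L ⊗ ℚ_S`.

* `asDiag_injective` : `L → L ⊗ ℚ_S` is injective (`S ≠ ∅`);
* `asMap_injective`  : `L' ⊗ ℚ_S → L ⊗ ℚ_S` is injective;
* `asAut_asMap`      : elements coming from `L'` are fixed by `N`;
* `asMap_asAut`      : base change is equivariant;
* `exists_asMap_eq_of_invariant` : `(L ⊗ ℚ_S)^N = L' ⊗ ℚ_S` (averaging);
* `exists_jMap_eq_of_invariant`  : the same for units.
-/
import Fermat.Agent.S55.G.Defs

set_option autoImplicit false
set_option linter.unusedSectionVars false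
set_option linter.style.haveILetI false

open scoped NumberField TensorProduct Pointwise
open IsDedekindDomain

noncomputable section

namespace Fermat.Agent.S55.G.DescH853

section Tensor

variable (S : Finset Nat.Primes) (L' L : Type) [Field L'] [CharZero L'] [Field L] [CharZero L]
  [Algebra L' L]

theorem qs_nontrivial (hS : S.Nonempty) : Nontrivial (QS S) := by
  obtain ⟨q, hq⟩ := hS
  haveI : Nonempty S := ⟨⟨q, hq⟩⟩
  exact inferInstanceAs (Nontrivial (∀ q : S, Qq q.1))

theorem asDiag_injective (hS : S.Nonempty) : Function.Injective (asDiag S L) := by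
  haveI := qs_nontrivial S hS
  exact Algebra.TensorProduct.includeLeft_injective (S := ℚ) (algebraMap ℚ (QS S)).injective

theorem asMap_injective : Function.Injective (asMap S L' L) := by
  have h : Function.Injective ((algebraMap L' L).toRatAlgHom.toLinearMap) :=
    (algebraMap L' L).injective
  have := Module.Flat.rTensor_preserves_injective_linearMap (M := QS S) _ h
  intro a b hab
  apply this
  have key : ∀ t : AS S L', asMap S L' L t =
      LinearMap.rTensor (QS S) ((algebraMap L' L).toRatAlgHom.toLinearMap) t := by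
    intro t
    induction t using TensorProduct.induction_on with
    | zero => simp
    | tmul x y => simp
    | add x y hx hy => rw [map_add, map_add, hx, hy]
  rw [← key, ← key, hab]

end Tensor

section Invariants

variable (S : Finset Nat.Primes) {G : Type} (L' L : Type) [Group G] [Field L'] [CharZero L']
  [Field L] [CharZero L] [Algebra L' L] [MulSemiringAction G L]

/-- Elements of `L' ⊗ ℚ_S` are fixed by every `g` fixing `L'`. -/
theorem asAut_asMap (g : G) (hg : ∀ x : L', g • algebraMap L' L x = algebraMap L' L x)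
    (t : AS S L') : asAut S G L g (asMap S L' L t) = asMap S L' L t := by
  induction t using TensorProduct.induction_on with
  | zero => simp
  | tmul x y => simp [hg]
  | add x y hx hy => rw [map_add, map_add, hx, hy]

/-- Base change `L' ⊗ ℚ_S → L ⊗ ℚ_S` is equivariant. -/
theorem asMap_asAut {Q : Type} [Group Q] [MulSemiringAction Q L'] (g : G) (q : Q)
    (hgq : ∀ x : L', algebraMap L' L (q • x) = g • algebraMap L' L x)
    (t : AS S L') : asMap S L' L (asAut S Q L' q t) = asAut S G L g (asMap S L' L t) := by
  induction t using TensorProduct.induction_on with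
  | zero => simp
  | tmul x y => simp [hgq]
  | add x y hx hy => simp only [map_add, hx, hy]

/-- `(L ⊗ ℚ_S)^N = L' ⊗ ℚ_S` when `L^N = L'`. -/
theorem exists_asMap_eq_of_invariant (N : Subgroup G) [Finite N]
    (hfix : ∀ x : L, (∀ n : N, (n : G) • x = x) → x ∈ (algebraMap L' L).range)
    (t : AS S L) (ht : ∀ n : N, asAut S G L (n : G) t = t) :
    ∃ t' : AS S L', asMap S L' L t' = t := by
  cases nonempty_fintype N
  let i : L' →ₗ[ℚ] L := (algebraMap L' L).toRatAlgHom.toLinearMap
  have hi : Function.Injective i := (algebraMap L' L).injective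
  let A : L →ₗ[ℚ] L :=
    ((Fintype.card N : ℚ)⁻¹) • ∑ n : N, (fieldAut G L (n : G)).toLinearMap
  have hAx : ∀ x, A x = ((Fintype.card N : ℚ)⁻¹) • ∑ n : N, (n : G) • x := by
    intro x
    simp [A, LinearMap.sum_apply]
  have hA : ∀ x, A x ∈ LinearMap.range i := by
    intro x
    obtain ⟨y, hy⟩ := hfix (A x) (fun m => by
      rw [hAx]
      have h1 : ∀ z : L, (m : G) • z = (fieldAut G L (m : G)).toLinearMap z := fun z => rfl
      rw [h1, LinearMap.map_smul, map_sum]
      congr 1
      simp only [AlgEquiv.toLinearMap_apply, fieldAut_apply, ← mul_smul]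
      exact Fintype.sum_bijective (fun n : N => m * n) (Group.mulLeft_bijective m) _ _
        (fun n => rfl))
    exact ⟨y, hy⟩
  let A' : L →ₗ[ℚ] L' :=
    (LinearEquiv.ofInjective i hi).symm.toLinearMap ∘ₗ A.codRestrict (LinearMap.range i) hA
  have hA' : ∀ x, algebraMap L' L (A' x) = A x := by
    intro x
    have := (LinearEquiv.ofInjective i hi).apply_symm_apply (A.codRestrict (LinearMap.range i) hA x)
    exact congrArg Subtype.val this
  let P : AS S L →ₗ[ℚ] AS S L' := LinearMap.rTensor (QS S) A'
  have key : ∀ t : AS S L, asMap S L' L (P t) =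
      ((Fintype.card N : ℚ)⁻¹) • ∑ n : N, asAut S G L (n : G) t := by
    intro t
    induction t using TensorProduct.induction_on with
    | zero => simp
    | tmul x y =>
      simp only [P, LinearMap.rTensor_tmul, asMap_tmul, hA', hAx, asAut_tmul]
      rw [← TensorProduct.smul_tmul', TensorProduct.sum_tmul]
    | add x y hx hy =>
      simp only [map_add, hx, hy, Finset.sum_add_distrib, smul_add]
  refine ⟨P t, ?_⟩
  rw [key]
  simp only [ht, Finset.sum_const, Finset.card_univ]
  rw [← Nat.cast_smul_eq_nsmul ℚ, inv_smul_smul₀]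
  exact_mod_cast Fintype.card_ne_zero

/-- `J_S(L)^N = J_S(L')`. -/
theorem exists_jMap_eq_of_invariant (N : Subgroup G) [Finite N]
    (hfix : ∀ x : L, (∀ n : N, (n : G) • x = x) → x ∈ (algebraMap L' L).range)
    (j : Additive (AS S L)ˣ) (hj : ∀ n : N, jRepr G S L (n : G) j = j) :
    ∃ j' : Additive (AS S L')ˣ, jMap S L' L j' = j := by
  have h1 : ∀ n : N, asAut S G L (n : G) ((j.toMul : (AS S L)ˣ) : AS S L) =
      ((j.toMul : (AS S L)ˣ) : AS S L) := by
    intro n
    rw [← coe_jRepr_apply, hj n]
  have h2 : ∀ n : N, asAut S G L (n : G) (((j.toMul)⁻¹ : (AS S L)ˣ) : AS S L) =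
      (((j.toMul)⁻¹ : (AS S L)ˣ) : AS S L) := by
    intro n
    have h3 : jRepr G S L (n : G) (-j) = -j := by rw [map_neg, hj n]
    have h4 := coe_jRepr_apply G S L (n : G) (-j)
    rw [h3] at h4
    exact h4.symm
  obtain ⟨a, ha⟩ := exists_asMap_eq_of_invariant S L' L N hfix _ h1
  obtain ⟨b, hb⟩ := exists_asMap_eq_of_invariant S L' L N hfix _ h2
  have hab : a * b = 1 := by
    apply asMap_injective S L' L
    rw [map_mul, ha, hb, map_one, Units.mul_inv]
  have hba : b * a = 1 := by rw [mul_comm, hab]
  refine ⟨Additive.ofMul ⟨a, b, hab, hba⟩, ?_⟩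
  apply Additive.toMul.injective
  apply Units.ext
  rw [coe_jMap_apply]
  exact ha

end Invariants

end Fermat.Agent.S55.G.DescH853
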