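/-
S55 layer G, leaf G-DESC (helper853) — part 5: assembly.

`descent_core` : the statement of `DescentSpec` with the hypothesis `IsUnramOut` unfolded.
-/
import Fermat.Agent.S55.G.DescH853.Tensor
import Fermat.Agent.S55.G.DescH853.Hilbert90
import Fermat.Agent.S55.G.DescH853.Conorm

set_option autoImplicit false
set_option linter.unusedSectionVars false
set_option linter.style.haveILetI false

open scoped NumberField TensorProduct Pointwise
open IsDedekindDomain

noncomputable section

namespace Fermat.Agent.S55.G.DescH853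

section Main

variable (S : Finset Nat.Primes) (L' L : Type) [Field L] [NumberField L]
    [Field L'] [NumberField L'] [Algebra L' L]

/-- Base change `J_S(L') × Div^S(L') → J_S(L) × Div^S(L)`. -/
def jdMap : JD S L' →+ JD S L := (jMap S L' L).prodMap (conorm S L' L)

lemma jdMap_apply (y : JD S L') : jdMap S L' L y = (jMap S L' L y.1, conorm S L' L y.2) := rfl

theorem jMap_injective : Function.Injective (jMap S L' L) := by
  intro a b h
  apply Additive.toMul.injective
  apply Units.ext
  apply asMap_injective S L' L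
  have := congrArg (fun u : Additive (AS S L)ˣ => ((u.toMul : (AS S L)ˣ) : AS S L)) h
  exact this

theorem jdMap_injective : Function.Injective (jdMap S L' L) := by
  intro a b h
  rw [jdMap_apply, jdMap_apply] at h
  exact Prod.ext (jMap_injective S L' L (congrArg Prod.fst h))
    (conorm_injective S L' L (congrArg Prod.snd h))

theorem diagHom_injective (hS : S.Nonempty) : Function.Injective (diagHom S L) := by
  intro x y h
  apply Additive.toMul.injective
  apply Units.ext
  apply asDiag_injective S L hS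
  have := congrArg (fun u : JD S L => ((u.1.toMul : (AS S L)ˣ) : AS S L)) h
  exact this

variable {G : Type} [Group G] [MulSemiringAction G L]

lemma jdRepr_apply (g : G) (y : JD S L) :
    jdRepr S G L g y = (jRepr G S L g y.1, divRepr S G L g y.2) := rfl

theorem jMap_equivariant {Q : Type} [Group Q] [MulSemiringAction Q L'] (g : G) (q : Q)
    (hgq : ∀ x : L', algebraMap L' L (q • x) = g • algebraMap L' L x)
    (j : Additive (AS S L')ˣ) :
    jMap S L' L (jRepr Q S L' q j) = jRepr G S L g (jMap S L' L j) := by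
  apply Additive.toMul.injective
  apply Units.ext
  rw [coe_jMap_apply, coe_jRepr_apply, coe_jRepr_apply, coe_jMap_apply]
  exact asMap_asAut S L' L g q hgq _

theorem jdMap_equivariant {Q : Type} [Group Q] [MulSemiringAction Q L'] (g : G) (q : Q)
    (hgq : ∀ x : L', algebraMap L' L (q • x) = g • algebraMap L' L x) (y : JD S L') :
    jdMap S L' L (jdRepr S Q L' q y) = jdRepr S G L g (jdMap S L' L y) := by
  rw [jdMap_apply, jdRepr_apply, jdRepr_apply, jdMap_apply]
  exact Prod.ext (jMap_equivariant S L' L g q hgq y.1) (conorm_equivariant S L' L g q hgq y.2)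

variable [Finite G] [FaithfulSMul G L] (N : Subgroup G)

theorem jdMap_diagHom
    (hfix : ∀ x : L, (∀ n : N, (n : G) • x = x) ↔ x ∈ (algebraMap L' L).range)
    (hunr : ∀ w : HeightOneSpectrum (𝓞 L), ¬ IsAbove S L w →
      ∀ g : G, (∀ x : 𝓞 L, g • x - x ∈ w.asIdeal) → ∀ x : L, g • x = x)
    (x : Additive L'ˣ) :
    jdMap S L' L (diagHom S L' x) = diagHom S L (lMap L' L x) :=
  Prod.ext (jMap_unitsDiag S L' L x) (conorm_ordHom S L' L N hfix hunr x)

theorem mem_principal_of_jdMap_mem (hS : S.Nonempty)
    (hfix : ∀ x : L, (∀ n : N, (n : G) • x = x) ↔ x ∈ (algebraMap L' L).range)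
    (hunr : ∀ w : HeightOneSpectrum (𝓞 L), ¬ IsAbove S L w →
      ∀ g : G, (∀ x : 𝓞 L, g • x - x ∈ w.asIdeal) → ∀ x : L, g • x = x)
    (y : JD S L') (h : jdMap S L' L y ∈ principal S L) : y ∈ principal S L' := by
  obtain ⟨x, hx⟩ := (mem_principal_iff S L _).1 h
  have h1 : asDiag S L ((x.toMul : Lˣ) : L) =
      asMap S L' L ((y.1.toMul : (AS S L')ˣ) : AS S L') := by
    have := congrArg (fun u : JD S L => ((u.1.toMul : (AS S L)ˣ) : AS S L)) hx
    exact this
  have hxN : ∀ n : N, (n : G) • ((x.toMul : Lˣ) : L) = ((x.toMul : Lˣ) : L) := by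
    intro n
    apply asDiag_injective S L hS
    rw [← asAut_asDiag, h1, asAut_asMap S L' L (n : G) (fun z => (hfix _).2 ⟨z, rfl⟩ n)]
  obtain ⟨x', hx'⟩ := (hfix _).1 hxN
  have hx'0 : x' ≠ 0 := by
    rintro rfl
    rw [map_zero] at hx'
    exact (x.toMul).ne_zero hx'.symm
  refine (mem_principal_iff S L' _).2 ⟨Additive.ofMul (Units.mk0 x' hx'0), ?_⟩
  have hl : lMap L' L (Additive.ofMul (Units.mk0 x' hx'0)) = x := by
    apply Additive.toMul.injective
    apply Units.ext
    exact hx'
  apply jdMap_injective S L' L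
  rw [jdMap_diagHom S L' L N hfix hunr, hl]
  exact hx

/-- Every `N`-invariant class in `C_S(L)` has an `N`-invariant representative in
`J_S(L) × Div^S(L)` (Hilbert 90). -/
theorem exists_invariant_repr (hS : S.Nonempty) (y : JD S L)
    (hy : ∀ n : N, jdRepr S G L (n : G) y - y ∈ principal S L) :
    ∃ y₁ : JD S L, y₁ - y ∈ principal S L ∧ ∀ n : N, jdRepr S G L (n : G) y₁ = y₁ := by
  have h1 : ∀ n : N, ∃ x : Additive Lˣ, diagHom S L x = jdRepr S G L (n : G) y - y :=
    fun n => (mem_principal_iff S L _).1 (hy n)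
  choose x hx using h1
  have hcoc : ∀ n m : N, x (n * m) = x n + lRepr G L (n : G) (x m) := by
    intro n m
    apply diagHom_injective S L hS
    rw [map_add, diagHom_equivariant, hx, hx, hx, map_sub, Subgroup.coe_mul, map_mul,
      Module.End.mul_apply]
    abel
  obtain ⟨z, hz⟩ := hilbert90 (N := N) (L := L) (fun n => (x n).toMul) (by
    intro n m
    have := congrArg (fun u : Additive Lˣ => ((u.toMul : Lˣ) : L)) (hcoc n m)
    exact this)
  have hz' : ∀ n : N, x n + lRepr G L (n : G) (Additive.ofMul z) = Additive.ofMul z := by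
    intro n
    apply Additive.toMul.injective
    apply Units.ext
    exact hz n
  refine ⟨y + diagHom S L (Additive.ofMul z), ?_, fun n => ?_⟩
  · rw [add_sub_cancel_left]
    exact (mem_principal_iff S L _).2 ⟨_, rfl⟩
  · rw [map_add, ← diagHom_equivariant, ← sub_eq_zero]
    have : jdRepr S G L (n : G) y + diagHom S L (lRepr G L (n : G) (Additive.ofMul z)) -
        (y + diagHom S L (Additive.ofMul z)) =
        diagHom S L (x n + lRepr G L (n : G) (Additive.ofMul z) - Additive.ofMul z) := by
      rw [map_sub, map_add, hx]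
      abel
    rw [this, hz' n, sub_self, map_zero]

end Main

section Final

variable (S : Finset Nat.Primes) (G L L' : Type) [Group G] [Finite G] [Field L] [NumberField L]
    [Field L'] [NumberField L'] [Algebra L' L] [MulSemiringAction G L] [FaithfulSMul G L]
    (N : Subgroup G) [N.Normal] [MulSemiringAction (G ⧸ N) L']

/-- **G-DESC**, with the unramifiedness hypothesis unfolded. -/
theorem descent_core (hS : S.Nonempty)
    (hunr : ∀ w : HeightOneSpectrum (𝓞 L), ¬ IsAbove S L w →
      ∀ g : G, (∀ x : 𝓞 L, g • x - x ∈ w.asIdeal) → ∀ x : L, g • x = x)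
    (hfix : ∀ x : L, (∀ n : N, (n : G) • x = x) ↔ x ∈ (algebraMap L' L).range)
    (hcompat : ∀ (g : G) (x : L'), algebraMap L' L ((g : G ⧸ N) • x) = g • algebraMap L' L x) :
    ∃ ι : CS S L' →+ CS S L,
      Function.Injective ι ∧
      (∀ (g : G) (c : CS S L'), ι (cRepr S (G ⧸ N) L' (g : G ⧸ N) c) = cRepr S G L g (ι c)) ∧
      (∀ c : CS S L, (∀ n : N, cRepr S G L (n : G) c = c) ↔ c ∈ Set.range ι) ∧
      (∀ y : Additive (AS S L')ˣ,
        ι ((principal S L').mkQ (y, 0)) = (principal S L).mkQ (jMap S L' L y, 0)) := by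
  have hφ : principal S L' ≤ (principal S L).comap (jdMap S L' L).toIntLinearMap := by
    rintro _ ⟨x, rfl⟩
    exact (mem_principal_iff S L _).2 ⟨lMap L' L x, (jdMap_diagHom S L' L N hfix hunr x).symm⟩
  let ι : CS S L' →+ CS S L :=
    ((principal S L').mapQ (principal S L) (jdMap S L' L).toIntLinearMap hφ).toAddMonoidHom
  have hι : ∀ y : JD S L', ι ((principal S L').mkQ y) = (principal S L).mkQ (jdMap S L' L y) :=
    fun y => rfl
  have hcR : ∀ (g : G) (y : JD S L),
      cRepr S G L g ((principal S L).mkQ y) = (principal S L).mkQ (jdRepr S G L g y) :=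
    fun g y => rfl
  have hcR' : ∀ (q : G ⧸ N) (y : JD S L'),
      cRepr S (G ⧸ N) L' q ((principal S L').mkQ y) =
        (principal S L').mkQ (jdRepr S (G ⧸ N) L' q y) :=
    fun q y => rfl
  have hequiv : ∀ (g : G) (c : CS S L'),
      ι (cRepr S (G ⧸ N) L' (g : G ⧸ N) c) = cRepr S G L g (ι c) := by
    intro g c
    obtain ⟨y, rfl⟩ := Submodule.mkQ_surjective _ c
    rw [hcR', hι, hι, hcR, jdMap_equivariant S L' L g (g : G ⧸ N) (hcompat g)]
  refine ⟨ι, ?_, hequiv, ?_, ?_⟩
  · -- injectivity
    rw [injective_iff_map_eq_zero]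
    intro c hc
    obtain ⟨y, rfl⟩ := Submodule.mkQ_surjective _ c
    rw [hι] at hc
    have h1 : jdMap S L' L y ∈ principal S L := (Submodule.Quotient.mk_eq_zero _).1 hc
    exact (Submodule.Quotient.mk_eq_zero _).2
      (mem_principal_of_jdMap_mem S L' L N hS hfix hunr y h1)
  · -- the image is the group of `N`-invariants
    intro c
    constructor
    · intro hc
      obtain ⟨y, rfl⟩ := Submodule.mkQ_surjective _ c
      have hy : ∀ n : N, jdRepr S G L (n : G) y - y ∈ principal S L := by
        intro n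
        have h2 := hc n
        rw [hcR] at h2
        exact (Submodule.Quotient.eq _).1 h2
      obtain ⟨y₁, hy₁, hinv⟩ := exists_invariant_repr S L N hS y hy
      have hj : ∀ n : N, jRepr G S L (n : G) y₁.1 = y₁.1 :=
        fun n => congrArg Prod.fst (hinv n)
      have hd : ∀ n : N, divRepr S G L (n : G) y₁.2 = y₁.2 :=
        fun n => congrArg Prod.snd (hinv n)
      obtain ⟨j', hj'⟩ :=
        exists_jMap_eq_of_invariant S L' L N (fun x h => (hfix x).1 h) y₁.1 hj
      obtain ⟨d', hd'⟩ := exists_conorm_eq_of_invariant S L' L N hfix y₁.2 hd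
      refine ⟨(principal S L').mkQ (j', d'), ?_⟩
      rw [hι, jdMap_apply, hj', hd']
      exact (Submodule.Quotient.eq _).2 hy₁
    · rintro ⟨c', rfl⟩ n
      rw [← hequiv]
      have h1 : ((n : G) : G ⧸ N) = 1 := (QuotientGroup.eq_one_iff _).2 n.2
      rw [h1, map_one, Module.End.one_apply]
  · intro y
    rw [hι, jdMap_apply, map_zero]

end Final

end Fermat.Agent.S55.G.DescH853
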